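import Mathlib
import Fermat.Agent.LT.T7.H1U.FactIntUpQSpec
import Fermat.Agent.LT.T7.H852.PtFactUp

/-!
# Row LT, tower T7, leaf T7.L2Q.1.H1.5.8.1.c.1 `H1U.PtFactUpQC` (helper355, registry row 2858)

OFF-MAIN.  `ptFactUpQC355 F : H1U.PtFactUpQC F`, VERBATIM, unconditional.

Spec: `T7/H1U/FactIntUpQSpec.lean` (helper1@68f16f671, sha256 921e1b93).

Proof.  `y⁻¹ δ σ(y) r'^j ∈ Out_{S'}` (`H852.outT_term852`, helper852: `S'` is `σ`-stable), so the
pure tensor is the product of its components; the ray is trivial at the finite places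
(`H454.PtFact.finGL_ray_zpow454`) and central at infinity (`H852.infGL_term852`); `F` has ONE infinite
place `w`, and `σ_𝔸` acts at `w` by the complex conjugation: `H558.sigmaLocC558` (helper558)
gives the identity or the conjugation, and the identity is excluded by `σ ≠ 1`
(`IsCyclicOfDegree.faithful` for `l = 2`; the embedding at `w` is injective).
-/

set_option autoImplicit false

open AutomorphicForm IsDedekindDomain NumberField MeasureTheory
open scoped ComplexConjugate

noncomputable section

namespace Fermat.Agent.LT.T7.H355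

open Fermat.Agent.LT.H556 Fermat.Agent.LT.H556.A0 Fermat.Agent.LT.T7 Fermat.Agent.LT.T7.H305

attribute [local instance] Fermat.Agent.LT.T5.instMeasurableSpaceG

section OneField

variable {K : Type} [Field K] [NumberField K]

/-- The component at `w` of a principal adele. -/
theorem infHom_algebraMap355 (w : InfinitePlace K) (x : K) :
    T5.infHom w (algebraMap K (Adl K) x) = w.embedding x :=
  H558.ext_coe558 w x

/-- If there is ONE infinite place and `σ ≠ 1`, the adelic automorphism is the complex
conjugation at the infinite place. -/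
theorem infHom_sigma_conj355 (hsub : Subsingleton (InfinitePlace K)) (s : T5.AdelicAut K)
    (hne : ∃ x : K, s.σ x ≠ x) (w : InfinitePlace K) (a : Adl K) :
    T5.infHom w (s.σA a) = conj (T5.infHom w a) := by
  have hw : w.comap (s.σ : K →+* K) = w := Subsingleton.elim _ _
  rcases (H558.sigmaLocC558 (K := K) s).2 w with h | h
  · exfalso
    obtain ⟨x, hx⟩ := hne
    apply hx
    have h1 := h (algebraMap K (Adl K) x)
    rw [hw, s.compat, infHom_algebraMap355, infHom_algebraMap355] at h1
    exact w.embedding.injective h1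
  · rw [h a, hw]

/-- The component of `σ(y)` at the infinite place. -/
theorem infGL_onG_conj355 (hsub : Subsingleton (InfinitePlace K)) (s : T5.AdelicAut K)
    (hne : ∃ x : K, s.σ x ≠ x) (w : InfinitePlace K) (y : G K) :
    infGL305 w (s.onG y) = T6.glAut (starRingAut : ℂ ≃+* ℂ) (infGL305 w y) := by
  apply Units.ext
  refine Matrix.ext fun i k => ?_
  exact infHom_sigma_conj355 hsub s hne w ((y : Matrix (Fin 2) (Fin 2) (Adl K)) i k)

end OneField

section Leaf

variable (F : Type) [Field F] [NumberField F]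

/-- **LEAF B.1 = PT-FACT-UP over `ℚ`**, VERBATIM, unconditional. -/
theorem ptFactUpQC355 : H1U.PtFactUpQC F := by
  intro hIQ D hD _ hl S S' hS φ₀ Φ δ hδ w y j hy
  have hout := H852.outT_term852 hD hS hδ hy j
  have hsub : Subsingleton (InfinitePlace F) :=
    (Nat.card_eq_one_iff_unique.1 hIQ.1).1
  have hne : ∃ x : F, D.s.σ x ≠ x := by
    obtain ⟨x, hx⟩ := hD.cyc.faithful 1 Nat.one_pos (by rw [hl]; norm_num)
    exact ⟨x, by simpa using hx⟩
  have e : pure305 S' φ₀ Φ (y⁻¹ * T5.ratG δ * D.s.onG y * D.R'.r ^ j)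
      = (∏ w' ∈ S', φ₀ w' (finGL305 w' (y⁻¹ * T5.ratG δ * D.s.onG y * D.R'.r ^ j))) *
        ∏ w'' : InfinitePlace F,
          Φ w'' (infGL305 w'' (y⁻¹ * T5.ratG δ * D.s.onG y * D.R'.r ^ j)) :=
    if_pos hout
  rw [e]
  congr 1
  · refine Finset.prod_congr rfl fun w' _ => ?_
    have e1 : finGL305 w' (y⁻¹ * T5.ratG δ * D.s.onG y * D.R'.r ^ j)
        = finGL305 w' (y⁻¹ * T5.ratG δ * D.s.onG y) := by
      rw [map_mul (finGL305 w') _ (D.R'.r ^ j), H454.PtFact.finGL_ray_zpow454 hD.frame'.ray w' j,
        mul_one]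
    rw [e1]
  · rw [Fintype.prod_subsingleton _ w, H852.infGL_term852 hD w δ y j,
      infGL_onG_conj355 hsub D.s hne w y]

end Leaf

end Fermat.Agent.LT.T7.H355

end
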